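/-
P-ORD (S33), block B1 (helper62, volunteer leaf): in characteristic `p` the full level-`p M`
field of `q`-expansions `k(j(q^d) : d ∣ p M) ⊆ k((q))` coincides with the level-`M` field,
because `j(q^(p d)) = j(q^d)^p` (Frobenius on `k((q))`; the coefficients of `j` are integers).

Only Mathlib and the prelude are imported.

Main results (namespace `Fermat.Agent.H62.ORD`):
* `laurentPowChar`            : `x ^ p = (φ x)(q^p)` on `k((q))`, `char k = p`;
* `qExpand_mul_jqModC_char`   : `j(q^(p d)) = j(q^d) ^ p`;
* `fullC_mul_char`            : `modularFunctionFieldFullC k (p * M) = modularFunctionFieldFullC k M`;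
* `fullC_mul_char'`           : the same for `M * p`;
* `fullC_pow_mul_char`        : the same for `p ^ a * M`;
* `fullC_eq_of_dvd_char`      : the same for any `N` with `M ∣ N ∣ p ^ a * M`.
-/
import Mathlib
import Fermat.Prelude.Def_ModularCurve_X0ModL

set_option autoImplicit false
set_option linter.style.haveILetI false

noncomputable section

open ModularCurve

namespace Fermat.Agent.H62.ORD

section Frobenius

/-- `q ↦ q^n` on power series, seen inside Laurent series. -/
theorem qExpandOfPowerSeries {R : Type*} [CommRing R] (n : ℕ) [NeZero n]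
    (f : PowerSeries R) :
    qExpand R n (HahnSeries.ofPowerSeries ℤ R f) =
      HahnSeries.ofPowerSeries ℤ R (PowerSeries.expand n (NeZero.ne n) f) := by
  ext k
  by_cases hk : (n : ℤ) ∣ k
  · obtain ⟨m, rfl⟩ := hk
    rw [qExpand_coeff_mul]
    rcases le_or_gt 0 m with hm | hm
    · lift m to ℕ using hm
      rw [HahnSeries.ofPowerSeries_apply_coeff,
        show ((n : ℤ) * (m : ℤ)) = ((n * m : ℕ) : ℤ) by push_cast; rfl,
        HahnSeries.ofPowerSeries_apply_coeff, PowerSeries.coeff_expand_mul]
    · rw [ofPowerSeries_coeff_of_neg _ hm, ofPowerSeries_coeff_of_neg]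
      have hn : (0 : ℤ) < n := by exact_mod_cast Nat.pos_of_ne_zero (NeZero.ne n)
      exact mul_neg_of_pos_of_neg hn hm
  · rw [qExpand_coeff_of_not_dvd n _ hk]
    rcases le_or_gt 0 k with hk0 | hk0
    · lift k to ℕ using hk0
      rw [HahnSeries.ofPowerSeries_apply_coeff, PowerSeries.coeff_expand_of_not_dvd]
      intro h
      exact hk (by exact_mod_cast h)
    · rw [ofPowerSeries_coeff_of_neg _ hk0]

variable (p : ℕ) [hp : Fact p.Prime] {k : Type*} [CommRing k] [CharP k p]

/-- Frobenius on power series over a ring of characteristic `p`. -/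
theorem powerSeriesPowChar (f : PowerSeries k) :
    f ^ p = PowerSeries.expand p hp.out.ne_zero (f.map (frobenius k p)) := by
  have h := MvPowerSeries.map_frobenius_expand (σ := Unit) (R := k) p hp.out.ne_zero (f := f)
  rw [← h]
  exact (PowerSeries.map_expand p hp.out.ne_zero (frobenius k p) f)

/-- **Frobenius on `k((q))`**, `char k = p`: `x^p = (φ x)(q^p)` with `φ` the coefficientwise
Frobenius. -/
theorem laurentPowChar (x : LaurentSeries k) :
    haveI : NeZero p := ⟨hp.out.ne_zero⟩
    x ^ p = qExpand k p (coeffMap (frobenius k p) x) := by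
  haveI : NeZero p := ⟨hp.out.ne_zero⟩
  have key : ∀ (n : ℤ) (f : PowerSeries k),
      (HahnSeries.single n (1 : k) * HahnSeries.ofPowerSeries ℤ k f) ^ p =
        qExpand k p (coeffMap (frobenius k p)
          (HahnSeries.single n (1 : k) * HahnSeries.ofPowerSeries ℤ k f)) := by
    intro n f
    have h1 : (HahnSeries.single n (1 : k)) ^ p = HahnSeries.single ((p : ℤ) * n) (1 : k) := by
      rw [HahnSeries.single_pow, one_pow, nsmul_eq_mul]
    have h2 : coeffMap (frobenius k p) (HahnSeries.single n (1 : k)) =
        HahnSeries.single n (1 : k) := by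
      rw [coeffMap_single, map_one]
    rw [mul_pow, map_mul, map_mul, h1, h2, qExpand_single, ← map_pow, powerSeriesPowChar,
      coeffMap_ofPowerSeries, qExpandOfPowerSeries]
  have hx := LaurentSeries.single_order_mul_powerSeriesPart x
  rw [← hx]
  exact key _ _

/-- `j(q^(p d)) = j(q^d) ^ p` in characteristic `p`. -/
theorem qExpand_mul_jqModC_char (d : ℕ) [NeZero d] (e : ℕ) [NeZero e] (he : e = p * d) :
    qExpand k e (jqModC k) = (qExpand k d (jqModC k)) ^ p := by
  haveI : NeZero p := ⟨hp.out.ne_zero⟩
  subst he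
  rw [laurentPowChar p, coeffMap_qExpand, coeffMap_jqModC, qExpand_qExpand]

end Frobenius

section Field

variable (p : ℕ) [hp : Fact p.Prime] (k : Type*) [Field k] [CharP k p]

/-- One step: every generator of the level-`p M` field lies in the level-`M` field. -/
theorem fullC_mul_le_char (M N : ℕ) [NeZero M] [NeZero N] (hN : N = p * M) :
    modularFunctionFieldFullC k N ≤ modularFunctionFieldFullC k M := by
  rw [modularFunctionFieldFullC, IntermediateField.adjoin_le_iff]
  rintro x ⟨d, hne, hdvd, rfl⟩
  haveI := hne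
  by_cases hpd : p ∣ d
  · obtain ⟨d', rfl⟩ := hpd
    have hd'0 : d' ≠ 0 := by
      rintro rfl
      exact (NeZero.ne (p * 0)) (by simp)
    haveI : NeZero d' := ⟨hd'0⟩
    have hd'M : d' ∣ M := by
      rw [hN] at hdvd
      exact (Nat.mul_dvd_mul_iff_left hp.out.pos).1 hdvd
    rw [SetLike.mem_coe, qExpand_mul_jqModC_char p d' (p * d') rfl]
    exact pow_mem (jqModCd_mem_full k M hd'M) p
  · have hcop : Nat.Coprime d p :=
      (Nat.Coprime.symm ((Nat.Prime.coprime_iff_not_dvd hp.out).2 hpd))
    have hdM : d ∣ M := by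
      rw [hN] at hdvd
      exact hcop.dvd_of_dvd_mul_left hdvd
    exact jqModCd_mem_full k M hdM

/-- **The level-`p M` field equals the level-`M` field in characteristic `p`.** -/
theorem fullC_eq_char (M N : ℕ) [NeZero M] [NeZero N] (hN : N = p * M) :
    modularFunctionFieldFullC k N = modularFunctionFieldFullC k M :=
  le_antisymm (fullC_mul_le_char p k M N hN)
    (full_degeneracyC_le k (hN ▸ Dvd.intro_left p rfl))

/-- `modularFunctionFieldFullC k (p * M) = modularFunctionFieldFullC k M`, `char k = p`. -/
theorem fullC_mul_char (M : ℕ) [NeZero M] [NeZero (p * M)] :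
    modularFunctionFieldFullC k (p * M) = modularFunctionFieldFullC k M :=
  fullC_eq_char p k M (p * M) rfl

/-- `modularFunctionFieldFullC k (M * p) = modularFunctionFieldFullC k M`, `char k = p`. -/
theorem fullC_mul_char' (M : ℕ) [NeZero M] [NeZero (M * p)] :
    modularFunctionFieldFullC k (M * p) = modularFunctionFieldFullC k M :=
  fullC_eq_char p k M (M * p) (mul_comm M p)

/-- `modularFunctionFieldFullC k (p ^ a * M) = modularFunctionFieldFullC k M`, `char k = p`. -/
theorem fullC_pow_mul_char (a : ℕ) (M N : ℕ) [NeZero M] [NeZero N] (hN : N = p ^ a * M) :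
    modularFunctionFieldFullC k N = modularFunctionFieldFullC k M := by
  induction a generalizing N with
  | zero =>
    have : N = M := by simpa using hN
    subst this
    rfl
  | succ a ih =>
    have h0 : p ^ a * M ≠ 0 := mul_ne_zero (pow_ne_zero _ hp.out.ne_zero) (NeZero.ne M)
    haveI : NeZero (p ^ a * M) := ⟨h0⟩
    rw [fullC_eq_char p k (p ^ a * M) N (by rw [hN, pow_succ']; ring), ih (p ^ a * M) rfl]

/-- Any level `N` between `M` and `p ^ a * M` has the same field in characteristic `p`. -/
theorem fullC_eq_of_dvd_char (a : ℕ) (M N : ℕ) [NeZero M] [NeZero N] (hMN : M ∣ N)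
    (hNM : N ∣ p ^ a * M) :
    modularFunctionFieldFullC k N = modularFunctionFieldFullC k M := by
  have h0 : p ^ a * M ≠ 0 := mul_ne_zero (pow_ne_zero _ hp.out.ne_zero) (NeZero.ne M)
  haveI : NeZero (p ^ a * M) := ⟨h0⟩
  refine le_antisymm ?_ (full_degeneracyC_le k hMN)
  calc modularFunctionFieldFullC k N ≤ modularFunctionFieldFullC k (p ^ a * M) :=
        full_degeneracyC_le k hNM
    _ = modularFunctionFieldFullC k M := fullC_pow_mul_char p k a M (p ^ a * M) rfl

end Field

end Fermat.Agent.H62.ORD

end
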