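/-
P-ORD (S33), block B1, leaf **[CHART-COEFF]** (helper62): INTEGRALITY OF THE q-EXPANSIONS OF THE
CHART ELEMENTS (the missing leaf of findings #568, (CF-cusp)).

`A₀` a discrete valuation ring with fraction field `K₁`, `E ⊆ K₁((q))` a subfield with Gauss normal
forms (`H7.SS.HasGNF A₀ E`; e.g. the model field `ModelField K₁ N`, `H7.SS.hasGNF_model`), `x ∈ E`
with expansion in `A₀((q))` (e.g. `j`, `j(q^d)`, `1/j`, a Hauptmodul).  Then every element `z` of
the chart `B(x) = chartClosure A₀ E x` (the integral closure of `A₀[x]` in `E`) has its expansion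
in `A₀((q))`.

Proof (pure algebra).  `A₀⟦q⟧` is a unique factorisation domain (Mathlib, `A₀` principal), hence
integrally closed, and so is its localisation `A₀((q))`.  `z` is integral over `A₀[x] ⊆ A₀((q))`
and is a quotient of two elements of `A₀((q))` (Gauss normal form), hence lies in `A₀((q))`.

Main results (namespace `Fermat.Agent.H62.ORD`):
* `cc_mem_of_integral_of_frac`, `cc_laurent_isIntegrallyClosed` : the Mathlib-only core;
* `chartCoeff_gen`   : the general statement (any `E` with `HasGNF`);
* `chartCoeff_model` : the model field, coefficient form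
  `∀ n, (z : K₁((q))).coeff n ∈ (algebraMap A₀ K₁).range`;
* `chartClosure_map_algEquiv` : `W z ∈ B(W x)` for an automorphism `W` (the other cusp);
* `chartCoeff_model_W` : the coefficients of `W z`.
-/
import Fermat.Agent.H7.SS.GaussSD
import Fermat.Agent.H22.ES.KLSetting

set_option autoImplicit false
set_option linter.style.haveILetI false
set_option linter.unusedSectionVars false
set_option synthInstance.maxHeartbeats 400000

noncomputable section

open ModularCurve Polynomial

namespace Fermat.Agent.H62.ORD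

section Core

/-- An element of a field `L`, integral over an integrally closed domain `R ⊆ L` and a quotient of
two elements of `R`, lies in `R`. -/
theorem cc_mem_of_integral_of_frac {R L : Type*} [CommRing R] [IsDomain R] [IsIntegrallyClosed R]
    [Field L] (f : R →+* L) (hf : Function.Injective f) (z : L) (hz : f.IsIntegralElem z)
    (a b : R) (hb : b ≠ 0) (hab : z * f b = f a) : ∃ y : R, f y = z := by
  letI : Algebra R L := f.toAlgebra
  have hinj : Function.Injective (Algebra.ofId R L) := hf
  let φ : FractionRing R →ₐ[R] L := IsFractionRing.liftAlgHom (K := FractionRing R) hinj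
  have hφ : Function.Injective φ := φ.toRingHom.injective
  have hb' : f b ≠ 0 := fun h => hb (hf (by rw [h, map_zero]))
  set z' : FractionRing R := algebraMap R (FractionRing R) a / algebraMap R (FractionRing R) b
    with hz'
  have hφz : φ z' = z := by
    rw [hz', map_div₀, AlgHom.commutes, AlgHom.commutes]
    show f a / f b = z
    rw [← hab, mul_div_assoc, div_self hb', mul_one]
  have hint : IsIntegral R z' := by
    have h1 : IsIntegral R (φ z') := by rw [hφz]; exact hz
    exact (isIntegral_algHom_iff φ hφ).1 h1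
  obtain ⟨y, hy⟩ := IsIntegrallyClosed.algebraMap_eq_of_integral hint
  refine ⟨y, ?_⟩
  rw [← hφz, ← hy, AlgHom.commutes]
  rfl

/-- Laurent series over a principal ideal domain form an integrally closed domain. -/
theorem cc_laurent_isIntegrallyClosed (A₀ : Type*) [CommRing A₀] [IsDomain A₀]
    [IsPrincipalIdealRing A₀] : IsIntegrallyClosed (LaurentSeries A₀) := by
  haveI : IsIntegrallyClosed (PowerSeries A₀) := inferInstance
  refine isIntegrallyClosed_of_isLocalization (R := PowerSeries A₀) (LaurentSeries A₀)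
    (Submonoid.powers (PowerSeries.X : PowerSeries A₀)) ?_
  intro x hx
  obtain ⟨n, rfl⟩ := hx
  exact mem_nonZeroDivisors_of_ne_zero (pow_ne_zero n PowerSeries.X_ne_zero)

end Core

section Chart

open Fermat.Agent.H22.KL Fermat.Agent.H7.SS Fermat.Agent.H48.QExp

variable {K₁ : Type} [Field K₁] {A₀ : Type} [CommRing A₀] [IsDomain A₀]
  [IsDiscreteValuationRing A₀] [Algebra A₀ K₁] [IsFractionRing A₀ K₁]

/-- the range of `A₀((q)) → K₁((q))` contains the constants of `A₀` -/
theorem cc_const_mem (c : A₀) :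
    algebraMap K₁ (LaurentSeries K₁) (algebraMap A₀ K₁ c) ∈ (gIota K₁ A₀).range :=
  ⟨algebraMap A₀ (LaurentSeries A₀) c, coeffMap_algebraMap_gen _ _⟩

variable (E : IntermediateField K₁ (LaurentSeries K₁)) [Algebra A₀ E] [IsScalarTower A₀ K₁ E]

/-- the elements of `A₀[x]` have expansions in `A₀((q))` -/
theorem cc_chartRing_mem (x : E) (hx : (x : LaurentSeries K₁) ∈ (gIota K₁ A₀).range)
    (s : E) (hs : s ∈ chartRing A₀ E x) : (s : LaurentSeries K₁) ∈ (gIota K₁ A₀).range := by
  induction hs using Algebra.adjoin_induction with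
  | mem y hy =>
    rw [Set.mem_singleton_iff] at hy
    rw [hy]; exact hx
  | algebraMap c =>
    rw [IsScalarTower.algebraMap_apply A₀ K₁ E]
    exact cc_const_mem c
  | add y y' _ _ hy hy' =>
    exact (gIota K₁ A₀).range.add_mem hy hy'
  | mul y y' _ _ hy hy' =>
    exact (gIota K₁ A₀).range.mul_mem hy hy'

/-- **[CHART-COEFF], general form.** -/
theorem chartCoeff_gen (hG : HasGNF A₀ E) (x z : E)
    (hx : (x : LaurentSeries K₁) ∈ (gIota K₁ A₀).range) (hz : z ∈ chartClosure A₀ E x) :
    (z : LaurentSeries K₁) ∈ (gIota K₁ A₀).range := by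
  by_cases hz0 : (z : LaurentSeries K₁) = 0
  · rw [hz0]; exact (gIota K₁ A₀).range.zero_mem
  haveI : IsIntegrallyClosed (LaurentSeries A₀) := cc_laurent_isIntegrallyClosed A₀
  -- the quotient representation
  obtain ⟨c, a, b, hc, -, -, -, hrb, hzab⟩ := hG (z : LaurentSeries K₁) z.2 hz0
  obtain ⟨n, d, hd, hnd⟩ := IsFractionRing.div_surjective (A := A₀) c
  have hd0 : d ≠ 0 := nonZeroDivisors.ne_zero hd
  have hdK : algebraMap A₀ K₁ d ≠ 0 := by
    intro h
    exact hd0 ((IsFractionRing.injective A₀ K₁) (by rw [h, map_zero]))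
  have hb0 : b ≠ 0 := by
    rintro rfl
    exact hrb (map_zero _)
  have hfrac : (z : LaurentSeries K₁) * gIota K₁ A₀ (algebraMap A₀ (LaurentSeries A₀) d * b) =
      gIota K₁ A₀ (algebraMap A₀ (LaurentSeries A₀) n * a) := by
    rw [map_mul, map_mul, coeffMap_algebraMap_gen, coeffMap_algebraMap_gen, mul_left_comm, hzab,
      ← hnd, ← mul_assoc, ← map_mul, mul_div_cancel₀ _ hdK]
  have hdb : algebraMap A₀ (LaurentSeries A₀) d * b ≠ 0 := by
    refine mul_ne_zero ?_ hb0
    intro h
    have h2 := congrArg (gIota K₁ A₀) h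
    rw [coeffMap_algebraMap_gen, map_zero] at h2
    exact hdK ((algebraMap K₁ (LaurentSeries K₁)).injective (by rw [h2, map_zero]))
  -- integrality
  have hint : (gIota K₁ A₀).IsIntegralElem (z : LaurentSeries K₁) := by
    obtain ⟨P, hP, hPz⟩ := hz
    set θ : chartRing A₀ E x →+* LaurentSeries K₁ :=
      (algebraMap E (LaurentSeries K₁)).comp (algebraMap (chartRing A₀ E x) E) with hθ
    have hlift : P.map θ ∈ Polynomial.lifts (gIota K₁ A₀) := by
      rw [Polynomial.lifts_iff_coeff_lifts]
      intro m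
      rw [Polynomial.coeff_map]
      exact cc_chartRing_mem E x hx _ (P.coeff m).2
    obtain ⟨q, hq, -, hqm⟩ :=
      Polynomial.lifts_and_degree_eq_and_monic hlift (hP.map θ)
    refine ⟨q, hqm, ?_⟩
    rw [← Polynomial.eval_map, hq, Polynomial.eval_map, hθ]
    have h1 := Polynomial.hom_eval₂ P (algebraMap (chartRing A₀ E x) E)
      (algebraMap E (LaurentSeries K₁)) z
    rw [hPz, map_zero] at h1
    exact h1.symm
  obtain ⟨y, hy⟩ := cc_mem_of_integral_of_frac (gIota K₁ A₀) (gIota_injective K₁ A₀)
    (z : LaurentSeries K₁) hint _ _ hdb hfrac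
  exact ⟨y, hy⟩

/-- membership in the range of `A₀((q)) → K₁((q))` is coefficientwise -/
theorem cc_mem_range_iff (z : LaurentSeries K₁) :
    z ∈ (gIota K₁ A₀).range ↔ ∀ n : ℤ, z.coeff n ∈ (algebraMap A₀ K₁).range := by
  constructor
  · rintro ⟨Z, rfl⟩ n
    exact ⟨Z.coeff n, (coeffMap_coeff _ _ _).symm⟩
  · intro h
    obtain ⟨Z, hZ⟩ := exists_coeffMap_eq (algebraMap A₀ K₁) (IsFractionRing.injective A₀ K₁) z h
    exact ⟨Z, hZ⟩

/-- **[CHART-COEFF] for the model field**, coefficient form: the `q`-expansion of an element of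
the chart `B(x)` of `ModelField K₁ N` has its coefficients in `A₀`, as soon as `x` has. -/
theorem chartCoeff_model [Algebra ℚ K₁] (N : ℕ)
    [Algebra A₀ (ModelField K₁ N)] [IsScalarTower A₀ K₁ (ModelField K₁ N)]
    (x z : ModelField K₁ N)
    (hx : ∀ n : ℤ, (x : LaurentSeries K₁).coeff n ∈ (algebraMap A₀ K₁).range)
    (hz : z ∈ chartClosure A₀ (ModelField K₁ N) x) :
    ∀ n : ℤ, (z : LaurentSeries K₁).coeff n ∈ (algebraMap A₀ K₁).range :=
  (cc_mem_range_iff _).1
    (chartCoeff_gen (laurentBaseChange K₁ (modularFunctionFieldFull N)) (hasGNF_model K₁ A₀ N) x z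
      ((cc_mem_range_iff _).2 hx) hz)

/-- an automorphism `W` of `E` over `K₁` maps the chart `B(x)` into the chart `B(W x)` -/
theorem chartClosure_map_algEquiv (W : E ≃ₐ[K₁] E) (x z : E) (hz : z ∈ chartClosure A₀ E x) :
    W z ∈ chartClosure A₀ E (W x) := by
  -- `W` maps `A₀[x]` into `A₀[W x]`
  have hW : ∀ s : E, s ∈ chartRing A₀ E x → W s ∈ chartRing A₀ E (W x) := by
    intro s hs
    induction hs using Algebra.adjoin_induction with
    | mem y hy =>
      rw [Set.mem_singleton_iff] at hy
      rw [hy]; exact Algebra.subset_adjoin (Set.mem_singleton _)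
    | algebraMap c =>
      rw [IsScalarTower.algebraMap_apply A₀ K₁ E, AlgEquiv.commutes,
        ← IsScalarTower.algebraMap_apply A₀ K₁ E]
      exact Subalgebra.algebraMap_mem _ c
    | add y y' _ _ hy hy' =>
      rw [map_add]; exact Subalgebra.add_mem _ hy hy'
    | mul y y' _ _ hy hy' =>
      rw [map_mul]; exact Subalgebra.mul_mem _ hy hy'
  obtain ⟨P, hP, hPz⟩ := hz
  set θ : chartRing A₀ E x →+* chartRing A₀ E (W x) :=
    { toFun := fun s => ⟨W s, hW s s.2⟩
      map_one' := Subtype.ext (map_one W)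
      map_mul' := fun s t => Subtype.ext (map_mul W _ _)
      map_zero' := Subtype.ext (map_zero W)
      map_add' := fun s t => Subtype.ext (map_add W _ _) } with hθ
  refine ⟨P.map θ, hP.map θ, ?_⟩
  rw [Polynomial.eval₂_map]
  have hcomp : (algebraMap (chartRing A₀ E (W x)) E).comp θ =
      (W : E →+* E).comp (algebraMap (chartRing A₀ E x) E) := by
    ext s
    rfl
  rw [hcomp]
  have h1 := Polynomial.hom_eval₂ P (algebraMap (chartRing A₀ E x) E) (W : E →+* E) z
  rw [hPz, map_zero] at h1
  exact h1.symm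

/-- **[CHART-COEFF] at the other cusp** : if `W x` has its expansion in `A₀((q))`, so has `W z`
for every `z` of the chart `B(x)`. -/
theorem chartCoeff_model_W [Algebra ℚ K₁] (N : ℕ)
    [Algebra A₀ (ModelField K₁ N)] [IsScalarTower A₀ K₁ (ModelField K₁ N)]
    (W : ModelField K₁ N ≃ₐ[K₁] ModelField K₁ N) (x z : ModelField K₁ N)
    (hx : ∀ n : ℤ, (W x : LaurentSeries K₁).coeff n ∈ (algebraMap A₀ K₁).range)
    (hz : z ∈ chartClosure A₀ (ModelField K₁ N) x) :
    ∀ n : ℤ, (W z : LaurentSeries K₁).coeff n ∈ (algebraMap A₀ K₁).range :=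
  chartCoeff_model N (W x) (W z) hx
    (chartClosure_map_algEquiv (laurentBaseChange K₁ (modularFunctionFieldFull N)) W x z hz)

end Chart

end Fermat.Agent.H62.ORD

end
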