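/-
P-ORD (S33), block B1, row 1167 B1-NODES, part **[FINITE]** (helper62, second seat of helper83):
the nodal data `nmG` of `X₀(M p)` has FINITELY MANY NODES.

  `nmFinite_of (hS : NmSoftStatement M p) (hNC : nodes lie in the chart j) :
      ∀ A (h : NmSetup M p A), Finite (NmNode M p h.cop A)`
  `nmFinite_of_cross (hS) (hXY : NmCrossStatement M p)`   (non-cuspidality taken from [XY]);
  `nmFinite M p (hXY : NmCrossStatement M p)`, `nmFinite_of_chart M p hNC` (soft facts plugged in).

Proof.  The GLOBAL function `Y₀ = j - j(q^p)^p` (`= H20.ORD.nmSoftG`) lies in the chart `B̄(j)`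
(modular equation: `j(q^p)` is integral over `ℤ[j]`), `red_0 Y₀ = 0` and `red_∞ Y₀ ≠ 0`.  If the
centre of `P` lies on both components then `Y₀ ∈ 𝔮_0 ∩ B̄ ⊆` centre, so `red_∞ Y₀` vanishes at the
branch `n_∞ ν` of the node `ν` on `C_∞` : `n_∞ ν` is one of the finitely many zeros of the nonzero
function `red_∞ Y₀` of `F_∞`.  Finally `ν ↦ n_∞ ν` is injective (a common place over two centres
forces the centres to be equal, SPEC).
-/
import Fermat.Agent.H20.ORD.NmSoft
import Fermat.Agent.H84.ORD.NodalSpecFinal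
import Fermat.Agent.H92.ORD.NodalAsm
import Fermat.Agent.H27.KLGB.Integral

set_option autoImplicit false
set_option linter.unusedSectionVars false
set_option linter.style.haveILetI false
set_option synthInstance.maxHeartbeats 400000

noncomputable section

open AlgebraicCurve ModularCurve Polynomial

namespace Fermat.Agent.H62.ORD

open Fermat.Agent.H72.FF Fermat.Agent.H18.ORD Fermat.Agent.H66 Fermat.Agent.H84.ORD
  Fermat.Agent.H20.ORD Fermat.Agent.H27

section Chart

variable (M p : ℕ) [NeZero M] [NeZero p] (A : ValuationSubring Qb)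

/-- the `q`-expansion of `j` -/
theorem nf_coe_nmJ (N : ℕ) [NeZero N] : ((nmJ N : FLb N) : LaurentSeries Qb) = jqModC Qb := by
  show coeffEmb Qb (qExpand ℚ 1 jq) = _
  rw [qExpand_one_apply, coeffEmb, ← jqModC_rat, coeffMap_jqModC]

/-- `α j = j` -/
theorem nf_alpha_eq : heckeAlphaBar Qb M p (nmSoftJ M) = nmJ (M * p) := by
  apply Subtype.ext
  rw [coe_heckeAlphaBar, nf_coe_nmJ]
  show qExpand Qb 1 (jqModC Qb) = _
  rw [qExpand_one_apply]

/-- the `q`-expansion of `β j` is `j(q^p)` -/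
theorem nf_coe_beta :
    ((heckeBetaBar Qb M p (nmSoftJ M) : FLb (M * p)) : LaurentSeries Qb) =
      qExpand Qb p (jqModC Qb) := by
  rw [coe_heckeBetaBar]
  show qExpand Qb p (qExpand Qb 1 (jqModC Qb)) = _
  rw [qExpand_one_apply]

/-- **The modular equation** : `β j = j(q^p)` lies in the chart `B̄(j)`. -/
theorem nf_beta_mem_nmChart (hp : p.Prime) :
    heckeBetaBar Qb M p (nmSoftJ M) ∈ nmChart (M * p) A (nmJ (M * p)) := by
  rw [mem_nmChart_iff]
  obtain ⟨Φ, hΦm, -, hΦ⟩ := Fermat.Agent.H27.KLGB.exists_modularEquation p hp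
  have hΦ' := Fermat.Agent.H27.KLGB.modularEquation_map (R := Qb) p Φ hΦ
  set θ : Polynomial ℤ →+* ↥(nmPoly (M * p) A (nmJ (M * p))) :=
    Polynomial.eval₂RingHom (Int.castRingHom _)
      ⟨nmJ (M * p), self_mem_nmPoly A (nmJ (M * p))⟩ with hθ
  refine ⟨Φ.map θ, hΦm.map θ, ?_⟩
  rw [Polynomial.eval₂_map]
  -- compare in `ℚ̄((q))`
  have hinj : Function.Injective
      (algebraMap (FLb (M * p)) (LaurentSeries Qb)) := fun a b hab => Subtype.ext hab
  apply hinj
  rw [map_zero, Polynomial.hom_eval₂]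
  have hcomp : (algebraMap (FLb (M * p)) (LaurentSeries Qb)).comp
      ((nmPoly (M * p) A (nmJ (M * p))).subtype.comp θ) = evalAt (jqModC Qb) := by
    apply Polynomial.ringHom_ext
    · intro n
      simp [hθ, evalAt]
    · simp only [hθ, evalAt, RingHom.comp_apply, Polynomial.coe_eval₂RingHom,
        Polynomial.eval₂_X]
      exact nf_coe_nmJ (M * p)
  rw [hcomp]
  have hb : algebraMap (FLb (M * p)) (LaurentSeries Qb) (heckeBetaBar Qb M p (nmSoftJ M)) =
      qExpand Qb p (jqModC Qb) := nf_coe_beta M p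
  rw [hb, ← Polynomial.eval_map]
  exact hΦ'

/-- `Y₀ = j - j(q^p)^p` lies in the chart `B̄(j)`. -/
theorem nf_G_mem_nmChart (hp : p.Prime) :
    nmSoftG M p ∈ nmChart (M * p) A (nmJ (M * p)) := by
  rw [nmSoftG, nf_alpha_eq]
  exact Subring.sub_mem _ (self_mem_nmChart A _)
    (Subring.pow_mem _ (nf_beta_mem_nmChart M p A hp) p)

variable (hcop : Nat.Coprime M p)

/-- `W Y₀ = X₀` -/
theorem nf_W_G : nmW M p hcop (nmSoftG M p) = nmSoftF M p := by
  rw [← nmW_nmSoftF M p hcop, nmSoft_W_W]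

/-- `Y₀ ∈ V_0` -/
theorem nf_G_mem_V0 : nmSoftG M p ∈ nmV0 M p hcop A := by
  rw [mem_nmV0_iff, nf_W_G]
  exact nmSoftF_mem M p A

/-- `red_0 Y₀ = 0` -/
theorem nf_red0_G (hp : p.Prime) (hA : A.LiesOverPrime p) :
    nmRed0 M p hcop A ⟨nmSoftG M p, nf_G_mem_V0 M p A hcop⟩ = 0 := by
  rw [nmSoft_red0_eq M p hcop A (nf_G_mem_V0 M p A hcop) (nmSoftF_mem M p A) (nf_W_G M p hcop)]
  exact nmSoft_red_F M p A hp hA

end Chart

section Finite

variable {M p : ℕ} [NeZero M] [NeZero p]

/-- **[FINITE]** finitely many nodes, from the soft facts and the non-cuspidality of the nodes. -/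
theorem nmFinite_of (hS : NmSoftStatement M p)
    (hNC : ∀ (A : ValuationSubring Qb) (h : NmSetup M p A) (P : Place Qb (FLb (M * p))),
      NmIdealOo M p A P → NmIdealZero M p h.cop A P → nmY A P = nmJ (M * p))
    (A : ValuationSubring Qb) (h : NmSetup M p A) : Finite (NmNode M p h.cop A) := by
  have H : NmBase M p A := nmBase_of_soft hS h
  have hpM : ¬ p ∣ M := fun hd =>
    h.prime.one_lt.ne' (Nat.Coprime.eq_one_of_dvd h.cop.symm hd)
  have hrr := (Fermat.Agent.H92.ORD.b1_rrHyp_nmF M p h.prime hpM A h.liesOver).2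
  haveI := hrr.principal
  -- the function `g = red_∞ Y₀`
  set g : NmF (M * p) A := nmRedOo (M * p) A ⟨nmSoftG M p, nmSoftG_mem M p A⟩ with hg
  have hg0 : g ≠ 0 := nmSoft_red_G M p A h.prime h.liesOver
  obtain ⟨D, hD, -⟩ := HasPrincipalDivisors.exists_divisor (K := kRes A) g hg0
  -- every branch is a zero of `g`
  have key : ∀ ν : NmNode M p h.cop A, nmNOo M p h.cop A ν ∈ D.support := by
    intro ν
    obtain ⟨⟨P, hP⟩, -, -⟩ := ν.2
    have hQ : NmSpecOo M p A (nmCentre A P) (nmNOo M p h.cop A ν) := by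
      rw [hP]; exact nmNOo_spec M p h.cop A ν
    have hQ0 : NmSpecZero M p h.cop A (nmCentre A P) (nmN0 M p h.cop A ν) := by
      rw [hP]; exact nmN0_spec M p h.cop A ν
    have hIo : NmIdealOo M p A P := H.idealOo_of_specOo hQ
    have hIz : NmIdealZero M p h.cop A P := H.idealZero_of_specZero hQ0
    have hY : nmY A P = nmJ (M * p) := hNC A h P hIo hIz
    have hGc : nmSoftG M p ∈ nmChart (M * p) A (nmY A P) := by
      rw [hY]; exact nf_G_mem_nmChart M p A h.prime
    have hGm : nmSoftG M p ∈ nmMax A P :=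
      hIz _ hGc (nf_G_mem_V0 M p A h.cop) (nf_red0_G M p A h.cop h.prime h.liesOver)
    have hGS : nmSoftG M p ∈ nmCentre A P := ⟨hGc, hGm⟩
    have hgQ : g ∈ (nmNOo M p h.cop A ν).toValuationSubring.nonunits :=
      hQ _ hGS (nmSoftG_mem M p A)
    rw [Finsupp.mem_support_iff, hD]
    rw [ValuationSubring.mem_nonunits_iff_exists_mem_maximalIdeal] at hgQ
    obtain ⟨ha, hmem⟩ := hgQ
    rcases (Fermat.Agent.H23.mem_maximalIdeal_iff_ord _ ⟨g, ha⟩).1 hmem with h0 | h0
    · exact absurd h0 hg0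
    · exact ne_of_gt h0
  -- injectivity of the branch map
  have hinj : Function.Injective
      (fun ν : NmNode M p h.cop A => (⟨nmNOo M p h.cop A ν, key ν⟩ : D.support)) := by
    intro ν ν' hνν'
    have hQQ : nmNOo M p h.cop A ν = nmNOo M p h.cop A ν' := congrArg Subtype.val hνν'
    obtain ⟨⟨P, hP⟩, -, -⟩ := ν.2
    obtain ⟨⟨P', hP'⟩, -, -⟩ := ν'.2
    have hQ : NmSpecOo M p A (nmCentre A P) (nmNOo M p h.cop A ν) := by
      rw [hP]; exact nmNOo_spec M p h.cop A ν
    have hQ' : NmSpecOo M p A (nmCentre A P') (nmNOo M p h.cop A ν) := by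
      rw [hP', hQQ]; exact nmNOo_spec M p h.cop A ν'
    apply Subtype.ext
    rw [← hP, ← hP']
    exact H.centre_eq_of_specOo hQ hQ'
  exact Finite.of_injective _ hinj

/-- **[FINITE]** from the soft facts and [XY]. -/
theorem nmFinite_of_cross (hS : NmSoftStatement M p) (hXY : NmCrossStatement M p)
    (A : ValuationSubring Qb) (h : NmSetup M p A) : Finite (NmNode M p h.cop A) :=
  nmFinite_of hS (fun A h P ho hz => (hXY A h P ho hz).1) A h

/-- **[FINITE]**, soft facts plugged in (helper20's `nmSoft`) : only the non-cuspidality of the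
nodes remains as input. -/
theorem nmFinite_of_chart (M p : ℕ) [NeZero M] [NeZero p]
    (hNC : ∀ (A : ValuationSubring Qb) (h : NmSetup M p A) (P : Place Qb (FLb (M * p))),
      NmIdealOo M p A P → NmIdealZero M p h.cop A P → nmY A P = nmJ (M * p))
    (A : ValuationSubring Qb) (h : NmSetup M p A) : Finite (NmNode M p h.cop A) :=
  nmFinite_of (nmSoft M p) hNC A h

/-- **[FINITE]** from [XY] alone. -/
theorem nmFinite (M p : ℕ) [NeZero M] [NeZero p] (hXY : NmCrossStatement M p)
    (A : ValuationSubring Qb) (h : NmSetup M p A) : Finite (NmNode M p h.cop A) :=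
  nmFinite_of_cross (nmSoft M p) hXY A h

end Finite

end Fermat.Agent.H62.ORD

end
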