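/-
P-ORD (S33), block B1, **[PAIR]** (helper62): the pair lattice property (M5) for the nodal data
of `X₀(M p)`, UNCONDITIONAL :

  `theorem nmLattice (M p) [NeZero M] [NeZero p] : H84.ORD.NmLatticeStatement M p`.

Proof.  (1) One valuation (`pl_single_of_G3`): helper66's lattice reduction (G3,
`H66.gaussLattice`) on the plane `⟨1, g⟩` gives two elements of `V_∞` with linearly independent
reductions; one of them has a NON-CONSTANT reduction, and it is `α g + β` with `α ≠ 0`.  Applied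
to `g = f` this gives `x = α₁ f + β₁ ∈ V_∞`; applied to `g = W f` and pulled back by the
Atkin-Lehner involution `W` it gives `y = α₂ f + β₂ ∈ V_0 = W⁻¹ V_∞` with non-constant `red_0 y`.
(2) Two valuations (`pl_pair`, abstract): write `y = c x + d`.  If `c ∈ A` : either `d ∈ A`, then
`y ∈ V_∞ ∩ V_0` and `red_0 y` is not constant; or `d ∉ A`, then `g = d⁻¹ y = (d⁻¹ c) x + 1` has
the reduction pair `(1, 0)`.  If `c ∉ A` exchange the roles (`x = c⁻¹ y + d'`).
No model, no regularity, no descent to number fields is used.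
-/
import Fermat.Agent.H84.ORD.NodalModelAPI
import Fermat.Agent.H66.ESD.GaussLattice2

set_option autoImplicit false
set_option linter.unusedSectionVars false
set_option linter.style.haveILetI false
set_option synthInstance.maxHeartbeats 400000

noncomputable section

open AlgebraicCurve ModularCurve

namespace Fermat.Agent.H62.ORD

section Abstract

variable {L F : Type*} [Field L] [Field F] [Algebra L F] {A : ValuationSubring L}

/-- an element of `L` outside `A` has its inverse in the maximal ideal of `A` -/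
theorem pl_inv_of_not_mem {d : L} (hd : d ∉ A) :
    d ≠ 0 ∧ ∃ hd' : d⁻¹ ∈ A, IsLocalRing.residue A ⟨d⁻¹, hd'⟩ = 0 := by
  have hd0 : d ≠ 0 := by
    rintro rfl
    exact hd A.zero_mem
  have hd' : d⁻¹ ∈ A := (A.mem_or_inv_mem d).resolve_left hd
  refine ⟨hd0, hd', ?_⟩
  rw [IsLocalRing.residue_eq_zero_iff]
  intro hu
  have hu' : IsUnit (⟨d⁻¹, hd'⟩ : A) := hu
  obtain ⟨v, hv⟩ := hu'.exists_right_inv
  have hv' : d⁻¹ * (v : L) = 1 := by
    have := congrArg (Subtype.val) hv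
    simpa using this
  have : (v : L) = d := by
    have h2 : d * (d⁻¹ * (v : L)) = d * 1 := by rw [hv']
    rw [← mul_assoc, mul_inv_cancel₀ hd0, one_mul, mul_one] at h2
    exact h2
  exact hd (this ▸ v.2)

variable {K₁ K₂ : Type*} [Field K₁] [Field K₂]
  [Algebra (IsLocalRing.ResidueField A) K₁] [Algebra (IsLocalRing.ResidueField A) K₂]

/-- reduction of a product `c * x`, `c ∈ A` a constant -/
theorem pl_red_const_mul (V : Subring F) (red : V →+* K₁)
    (hred : ∀ (c : A) (h : algebraMap L F (c : L) ∈ V),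
      red ⟨_, h⟩ = algebraMap (IsLocalRing.ResidueField A) K₁ (IsLocalRing.residue A c))
    {c : L} (hc : c ∈ A) (hcV : algebraMap L F c ∈ V) {x : F} (hx : x ∈ V)
    (h : algebraMap L F c * x ∈ V) :
    red ⟨_, h⟩ = algebraMap (IsLocalRing.ResidueField A) K₁ (IsLocalRing.residue A ⟨c, hc⟩) *
      red ⟨x, hx⟩ := by
  have e : (⟨algebraMap L F c * x, h⟩ : V) = ⟨algebraMap L F c, hcV⟩ * ⟨x, hx⟩ := rfl
  rw [e, map_mul, hred ⟨c, hc⟩ hcV]

/-- **The asymmetric step of the pair lattice lemma.**  `x ∈ V₁`, `y ∈ V₂`, `y = c x + d` with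
`c ∈ A`, and the reduction of `y` at `V₂` is not a constant: then a constant multiple `e y` lies
in `V₁ ∩ V₂` and its reduction is not a constant pair. -/
theorem pl_asym (V₁ V₂ : Subring F) (red₁ : V₁ →+* K₁) (red₂ : V₂ →+* K₂)
    (hconst₁ : ∀ c : L, c ∈ A → algebraMap L F c ∈ V₁)
    (hconst₂ : ∀ c : L, c ∈ A → algebraMap L F c ∈ V₂)
    (hred₁ : ∀ (c : A) (h : algebraMap L F (c : L) ∈ V₁),
      red₁ ⟨_, h⟩ = algebraMap (IsLocalRing.ResidueField A) K₁ (IsLocalRing.residue A c))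
    (hred₂ : ∀ (c : A) (h : algebraMap L F (c : L) ∈ V₂),
      red₂ ⟨_, h⟩ = algebraMap (IsLocalRing.ResidueField A) K₂ (IsLocalRing.residue A c))
    (x y : F) (hx : x ∈ V₁) (hy : y ∈ V₂) (c d : L) (hc : c ∈ A)
    (hxy : y = algebraMap L F c * x + algebraMap L F d)
    (hny : ∀ κ : IsLocalRing.ResidueField A,
      red₂ ⟨y, hy⟩ ≠ algebraMap (IsLocalRing.ResidueField A) K₂ κ) :
    ∃ e : L, e ≠ 0 ∧ ∃ (h₁ : algebraMap L F e * y ∈ V₁) (h₂ : algebraMap L F e * y ∈ V₂),
      ¬ ∃ κ : IsLocalRing.ResidueField A,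
        red₁ ⟨_, h₁⟩ = algebraMap (IsLocalRing.ResidueField A) K₁ κ ∧
        red₂ ⟨_, h₂⟩ = algebraMap (IsLocalRing.ResidueField A) K₂ κ := by
  by_cases hd : d ∈ A
  · -- `y ∈ V₁ ∩ V₂`
    have hy1 : y ∈ V₁ := by
      rw [hxy]
      exact V₁.add_mem (V₁.mul_mem (hconst₁ c hc) hx) (hconst₁ d hd)
    refine ⟨1, one_ne_zero, ?_, ?_, ?_⟩
    · rw [map_one, one_mul]; exact hy1
    · rw [map_one, one_mul]; exact hy
    · rintro ⟨κ, -, h2⟩
      apply hny κ
      rw [← h2]
      congr 1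
      exact Subtype.ext (by show y = algebraMap L F 1 * y; rw [map_one, one_mul])
  · -- `g = d⁻¹ y` has reduction pair `(1, 0)`
    obtain ⟨hd0, hd', hres⟩ := pl_inv_of_not_mem hd
    have hdc : d⁻¹ * c ∈ A := A.mul_mem _ _ hd' hc
    have hg : algebraMap L F d⁻¹ * y = algebraMap L F (d⁻¹ * c) * x + 1 := by
      rw [hxy, mul_add, ← mul_assoc, ← map_mul, ← map_mul, inv_mul_cancel₀ hd0, map_one]
    have h2 : algebraMap L F d⁻¹ * y ∈ V₂ := V₂.mul_mem (hconst₂ _ hd') hy
    have h1' : algebraMap L F (d⁻¹ * c) * x ∈ V₁ := V₁.mul_mem (hconst₁ _ hdc) hx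
    have h1 : algebraMap L F d⁻¹ * y ∈ V₁ := by
      rw [hg]
      exact V₁.add_mem h1' V₁.one_mem
    refine ⟨d⁻¹, inv_ne_zero hd0, h1, h2, ?_⟩
    rintro ⟨κ, hκ1, hκ2⟩
    have e2 : red₂ ⟨_, h2⟩ = 0 := by
      rw [pl_red_const_mul V₂ red₂ hred₂ hd' (hconst₂ _ hd') hy h2, hres, map_zero, zero_mul]
    have e1 : red₁ ⟨_, h1⟩ = 1 := by
      have e : (⟨algebraMap L F d⁻¹ * y, h1⟩ : V₁) = ⟨_, h1'⟩ + 1 := Subtype.ext hg
      have hres' : IsLocalRing.residue A ⟨d⁻¹ * c, hdc⟩ = 0 := by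
        have : (⟨d⁻¹ * c, hdc⟩ : A) = ⟨d⁻¹, hd'⟩ * ⟨c, hc⟩ := rfl
        rw [this, map_mul, hres, zero_mul]
      rw [e, map_add, map_one,
        pl_red_const_mul V₁ red₁ hred₁ hdc (hconst₁ _ hdc) hx h1', hres', map_zero, zero_mul,
        zero_add]
    rw [e2] at hκ2
    have hκ0 : κ = 0 := by
      have := hκ2.symm
      rwa [map_eq_zero] at this
    rw [e1, hκ0, map_zero] at hκ1
    exact one_ne_zero hκ1

/-- **The pair lattice lemma, abstract form.**  If `x = α₁ f + β₁ ∈ V₁` has non-constant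
reduction at `V₁` and `y = α₂ f + β₂ ∈ V₂` has non-constant reduction at `V₂` (`α₁, α₂ ≠ 0`),
then some `α f + β`, `α ≠ 0`, lies in `V₁ ∩ V₂` and its reduction is not a constant pair. -/
theorem pl_pair (V₁ V₂ : Subring F) (red₁ : V₁ →+* K₁) (red₂ : V₂ →+* K₂)
    (hconst₁ : ∀ c : L, c ∈ A → algebraMap L F c ∈ V₁)
    (hconst₂ : ∀ c : L, c ∈ A → algebraMap L F c ∈ V₂)
    (hred₁ : ∀ (c : A) (h : algebraMap L F (c : L) ∈ V₁),
      red₁ ⟨_, h⟩ = algebraMap (IsLocalRing.ResidueField A) K₁ (IsLocalRing.residue A c))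
    (hred₂ : ∀ (c : A) (h : algebraMap L F (c : L) ∈ V₂),
      red₂ ⟨_, h⟩ = algebraMap (IsLocalRing.ResidueField A) K₂ (IsLocalRing.residue A c))
    (f : F) (α₁ β₁ α₂ β₂ : L) (hα₁ : α₁ ≠ 0) (hα₂ : α₂ ≠ 0)
    (hx : algebraMap L F α₁ * f + algebraMap L F β₁ ∈ V₁)
    (hy : algebraMap L F α₂ * f + algebraMap L F β₂ ∈ V₂)
    (hnx : ∀ κ : IsLocalRing.ResidueField A,
      red₁ ⟨_, hx⟩ ≠ algebraMap (IsLocalRing.ResidueField A) K₁ κ)
    (hny : ∀ κ : IsLocalRing.ResidueField A,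
      red₂ ⟨_, hy⟩ ≠ algebraMap (IsLocalRing.ResidueField A) K₂ κ) :
    ∃ (α β : L) (h₁ : algebraMap L F α * f + algebraMap L F β ∈ V₁)
      (h₂ : algebraMap L F α * f + algebraMap L F β ∈ V₂), α ≠ 0 ∧
      ¬ ∃ κ : IsLocalRing.ResidueField A,
        red₁ ⟨_, h₁⟩ = algebraMap (IsLocalRing.ResidueField A) K₁ κ ∧
        red₂ ⟨_, h₂⟩ = algebraMap (IsLocalRing.ResidueField A) K₂ κ := by
  -- transport along `e (α f + β) = (e α) f + e β`
  have key : ∀ (e α β : L) (z : F), z = algebraMap L F (e * α) * f + algebraMap L F (e * β) →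
      e * α ≠ 0 → (∃ (h₁ : z ∈ V₁) (h₂ : z ∈ V₂),
        ¬ ∃ κ : IsLocalRing.ResidueField A,
          red₁ ⟨_, h₁⟩ = algebraMap (IsLocalRing.ResidueField A) K₁ κ ∧
          red₂ ⟨_, h₂⟩ = algebraMap (IsLocalRing.ResidueField A) K₂ κ) →
      ∃ (α β : L) (h₁ : algebraMap L F α * f + algebraMap L F β ∈ V₁)
        (h₂ : algebraMap L F α * f + algebraMap L F β ∈ V₂), α ≠ 0 ∧
        ¬ ∃ κ : IsLocalRing.ResidueField A,
          red₁ ⟨_, h₁⟩ = algebraMap (IsLocalRing.ResidueField A) K₁ κ ∧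
          red₂ ⟨_, h₂⟩ = algebraMap (IsLocalRing.ResidueField A) K₂ κ := by
    rintro e α β z rfl hne ⟨h₁, h₂, h⟩
    exact ⟨e * α, e * β, h₁, h₂, hne, h⟩
  have hmul : ∀ e α β : L, algebraMap L F e * (algebraMap L F α * f + algebraMap L F β) =
      algebraMap L F (e * α) * f + algebraMap L F (e * β) := by
    intro e α β
    rw [map_mul, map_mul]; ring
  set c : L := α₂ / α₁ with hc
  by_cases hcA : c ∈ A
  · -- `y = c x + d`
    have hxy : algebraMap L F α₂ * f + algebraMap L F β₂ =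
        algebraMap L F c * (algebraMap L F α₁ * f + algebraMap L F β₁) +
          algebraMap L F (β₂ - c * β₁) := by
      rw [hmul, hc, div_mul_cancel₀ _ hα₁, map_sub]; ring
    obtain ⟨e, he, h₁, h₂, h⟩ := pl_asym V₁ V₂ red₁ red₂ hconst₁ hconst₂ hred₁ hred₂ _ _ hx hy
      c (β₂ - c * β₁) hcA hxy hny
    exact key e α₂ β₂ _ (hmul e α₂ β₂) (mul_ne_zero he hα₂) ⟨h₁, h₂, h⟩
  · -- `x = c⁻¹ y + d'`
    have hc0 : c ≠ 0 := div_ne_zero hα₂ hα₁
    have hcA' : c⁻¹ ∈ A := (A.mem_or_inv_mem c).resolve_left hcA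
    have hci : c⁻¹ = α₁ / α₂ := by rw [hc, inv_div]
    have hxy : algebraMap L F α₁ * f + algebraMap L F β₁ =
        algebraMap L F c⁻¹ * (algebraMap L F α₂ * f + algebraMap L F β₂) +
          algebraMap L F (β₁ - c⁻¹ * β₂) := by
      rw [hmul, hci, div_mul_cancel₀ _ hα₂, map_sub]; ring
    obtain ⟨e, he, h₂, h₁, h⟩ := pl_asym V₂ V₁ red₂ red₁ hconst₂ hconst₁ hred₂ hred₁ _ _ hy hx
      c⁻¹ (β₁ - c⁻¹ * β₂) hcA' hxy hnx
    refine key e α₁ β₁ _ (hmul e α₁ β₁) (mul_ne_zero he hα₁) ⟨h₁, h₂, ?_⟩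
    rintro ⟨κ, h1, h2⟩
    exact h ⟨κ, h2, h1⟩

/-- **One valuation** : from two elements of `span {1, f} ∩ V` with linearly independent
reductions, an element `α f + β ∈ V`, `α ≠ 0`, with non-constant reduction. -/
theorem pl_single (V : Subring F) (red : V →+* K₁)
    (hconst : ∀ c : L, algebraMap L F c ∈ V → c ∈ A)
    (hred : ∀ (c : A) (h : algebraMap L F (c : L) ∈ V),
      red ⟨_, h⟩ = algebraMap (IsLocalRing.ResidueField A) K₁ (IsLocalRing.residue A c))
    (f : F) (u₀ u₁ : V) (a₀ b₀ a₁ b₁ : L)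
    (h₀ : (u₀ : F) = algebraMap L F a₀ * f + algebraMap L F b₀)
    (h₁ : (u₁ : F) = algebraMap L F a₁ * f + algebraMap L F b₁)
    (hli : LinearIndependent (IsLocalRing.ResidueField A) ![red u₀, red u₁]) :
    ∃ (α β : L) (h : algebraMap L F α * f + algebraMap L F β ∈ V), α ≠ 0 ∧
      ∀ κ : IsLocalRing.ResidueField A,
        red ⟨_, h⟩ ≠ algebraMap (IsLocalRing.ResidueField A) K₁ κ := by
  -- an element `a f + b ∈ V` with non-constant reduction has `a ≠ 0`
  have step : ∀ (u : V) (a b : L), (u : F) = algebraMap L F a * f + algebraMap L F b →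
      (∀ κ : IsLocalRing.ResidueField A,
        red u ≠ algebraMap (IsLocalRing.ResidueField A) K₁ κ) →
      ∃ (α β : L) (h : algebraMap L F α * f + algebraMap L F β ∈ V), α ≠ 0 ∧
        ∀ κ : IsLocalRing.ResidueField A,
          red ⟨_, h⟩ ≠ algebraMap (IsLocalRing.ResidueField A) K₁ κ := by
    intro u a b hu hn
    have hmem : algebraMap L F a * f + algebraMap L F b ∈ V := hu ▸ u.2
    have hu' : u = ⟨_, hmem⟩ := Subtype.ext hu
    refine ⟨a, b, hmem, ?_, fun κ => hu' ▸ hn κ⟩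
    rintro rfl
    rw [map_zero, zero_mul, zero_add] at hu
    have hbV : algebraMap L F b ∈ V := hu ▸ u.2
    have hbA : b ∈ A := hconst b hbV
    apply hn (IsLocalRing.residue A ⟨b, hbA⟩)
    rw [← hred ⟨b, hbA⟩ hbV]
    congr 1
    exact Subtype.ext hu
  by_cases hn₀ : ∀ κ : IsLocalRing.ResidueField A,
      red u₀ ≠ algebraMap (IsLocalRing.ResidueField A) K₁ κ
  · exact step u₀ a₀ b₀ h₀ hn₀
  · refine step u₁ a₁ b₁ h₁ ?_
    push Not at hn₀
    obtain ⟨κ₀, hκ₀⟩ := hn₀
    intro κ₁ hκ₁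
    rw [LinearIndependent.pair_iff] at hli
    have h := hli κ₁ (-κ₀) (by
      rw [hκ₀, hκ₁, Algebra.smul_def, Algebra.smul_def, ← map_mul, ← map_mul, ← map_add]
      rw [show κ₁ * κ₀ + -κ₀ * κ₁ = 0 by ring, map_zero])
    obtain ⟨h1, h2⟩ := h
    have hκ₀0 : κ₀ = 0 := by simpa using h2
    have hu₀ : red u₀ = 0 := by rw [hκ₀, hκ₀0, map_zero]
    have := hli 1 0 (by
      rw [hu₀, smul_zero, zero_smul, add_zero])
    exact one_ne_zero this.1

end Abstract

section Abstract2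

variable {L F : Type*} [Field L] [Field F] [Algebra L F] {A : ValuationSubring L}
variable {K₁ : Type*} [Field K₁] [Algebra (IsLocalRing.ResidueField A) K₁]

/-- the plane `⟨1, g⟩` of a non-constant `g` -/
theorem pl_plane (g : F) (hg : ∀ c : L, g ≠ algebraMap L F c) :
    LinearIndependent L ![(1 : F), g] := by
  rw [LinearIndependent.pair_iff]
  intro s t hst
  by_cases ht : t = 0
  · subst ht
    rw [zero_smul, add_zero, Algebra.smul_def, mul_one] at hst
    exact ⟨(map_eq_zero _).1 hst, rfl⟩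
  · exfalso
    apply hg (-(s / t))
    have h1 : algebraMap L F t * g = -(algebraMap L F s) := by
      rw [Algebra.smul_def, Algebra.smul_def, mul_one] at hst
      rw [eq_neg_iff_add_eq_zero, add_comm]; exact hst
    have ht' : algebraMap L F t ≠ 0 := (map_ne_zero _).2 ht
    have hs : algebraMap L F s = -(algebraMap L F t * g) := by rw [h1, neg_neg]
    rw [map_neg, map_div₀, hs, neg_div, neg_neg, mul_div_cancel_left₀ _ ht']

/-- **One valuation, from (G3)** : if every finite-dimensional subspace `W` of `F` contains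
`dim W` elements of `V` with linearly independent reductions, then a non-constant `g` has a
normalisation `α g + β ∈ V`, `α ≠ 0`, with non-constant reduction. -/
theorem pl_single_of_G3 (V : Subring F) (red : V →+* K₁)
    (hconst : ∀ c : L, algebraMap L F c ∈ V → c ∈ A)
    (hred : ∀ (c : A) (h : algebraMap L F (c : L) ∈ V),
      red ⟨_, h⟩ = algebraMap (IsLocalRing.ResidueField A) K₁ (IsLocalRing.residue A c))
    (hG3 : ∀ W : Submodule L F, FiniteDimensional L W →
      ∃ u : Fin (Module.finrank L W) → V, (∀ i, ((u i : V) : F) ∈ W) ∧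
        ∀ i j, i ≠ j → ∀ s t : IsLocalRing.ResidueField A,
          algebraMap (IsLocalRing.ResidueField A) K₁ s * red (u i) +
            algebraMap (IsLocalRing.ResidueField A) K₁ t * red (u j) = 0 → s = 0 ∧ t = 0)
    (g : F) (hg : ∀ c : L, g ≠ algebraMap L F c) :
    ∃ (α β : L) (h : algebraMap L F α * g + algebraMap L F β ∈ V), α ≠ 0 ∧
      ∀ κ : IsLocalRing.ResidueField A,
        red ⟨_, h⟩ ≠ algebraMap (IsLocalRing.ResidueField A) K₁ κ := by
  have hli := pl_plane (L := L) g hg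
  have hfin : FiniteDimensional L (Submodule.span L (Set.range ![(1 : F), g])) :=
    FiniteDimensional.span_of_finite L (Set.finite_range _)
  have hrank : Module.finrank L (Submodule.span L (Set.range ![(1 : F), g])) = 2 := by
    rw [finrank_span_eq_card hli]
    rfl
  obtain ⟨u, huV, huli⟩ := hG3 _ hfin
  have hmem : ∀ i, ∃ a b : L, ((u i : V) : F) = algebraMap L F a * g + algebraMap L F b := by
    intro i
    obtain ⟨c, hc⟩ := (Submodule.mem_span_range_iff_exists_fun L).1 (huV i)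
    refine ⟨c 1, c 0, ?_⟩
    rw [← hc, Fin.sum_univ_two]
    simp only [Matrix.cons_val_zero, Matrix.cons_val_one]
    rw [Algebra.smul_def, Algebra.smul_def, mul_one, add_comm]
  have hne : (Fin.cast hrank.symm (0 : Fin 2)) ≠ Fin.cast hrank.symm (1 : Fin 2) := by
    intro h
    have := Fin.cast_injective hrank.symm h
    exact absurd this (by decide)
  obtain ⟨a₀, b₀, h₀⟩ := hmem (Fin.cast hrank.symm 0)
  obtain ⟨a₁, b₁, h₁⟩ := hmem (Fin.cast hrank.symm 1)
  have hpair : LinearIndependent (IsLocalRing.ResidueField A)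
      ![red (u (Fin.cast hrank.symm 0)), red (u (Fin.cast hrank.symm 1))] := by
    rw [LinearIndependent.pair_iff]
    intro s t hst
    rw [Algebra.smul_def, Algebra.smul_def] at hst
    exact huli _ _ hne s t hst
  exact pl_single V red hconst hred g _ _ a₀ b₀ a₁ b₁ h₀ h₁ hpair

end Abstract2

section Concrete

open Fermat.Agent.H72.FF Fermat.Agent.H18.ORD Fermat.Agent.H66 Fermat.Agent.H84.ORD

variable (M p : ℕ) [NeZero M] [NeZero p] (A : ValuationSubring Qb)

/-- the reduction of a constant at `V_∞` -/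
theorem pl_nmRedOo_const (N : ℕ) (c : A)
    (hc : algebraMap Qb (FLb N) (c : Qb) ∈ gaussOBar N A) :
    nmRedOo N A ⟨_, hc⟩ = algebraMap (kRes A) (NmF N A) (IsLocalRing.residue A c) := by
  apply Subtype.ext
  rw [coe_nmRedOo, coe_nmAlgebraMap]
  exact gaussRedBar_algebraMap N A c.2

/-- constants of `V_0` -/
theorem pl_nmV0_const (hcop : Nat.Coprime M p) (c : Qb) :
    algebraMap Qb (FLb (M * p)) c ∈ nmV0 M p hcop A ↔ c ∈ A := by
  rw [mem_nmV0_iff, AlgEquiv.commutes]
  exact algebraMap_mem_gaussOBar_iff (M * p) A c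

/-- the reduction of a constant at `V_0` -/
theorem pl_nmRed0_const (hcop : Nat.Coprime M p) (c : A)
    (hc : algebraMap Qb (FLb (M * p)) (c : Qb) ∈ nmV0 M p hcop A) :
    nmRed0 M p hcop A ⟨_, hc⟩ =
      algebraMap (kRes A) (NmF (M * p) A) (IsLocalRing.residue A c) := by
  rw [nmRed0_apply]
  have hc' : algebraMap Qb (FLb (M * p)) (c : Qb) ∈ gaussOBar (M * p) A :=
    (algebraMap_mem_gaussOBar_iff (M * p) A c).2 c.2
  rw [← pl_nmRedOo_const A (M * p) c hc']
  congr 1
  exact Subtype.ext (AlgEquiv.commutes _ _)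

/-- **One valuation** : a non-constant `g` has a normalisation `α g + β ∈ V_∞`, `α ≠ 0`, with
non-constant reduction. -/
theorem pl_nmSingle (N ℓ : ℕ) [NeZero N] [Fact ℓ.Prime] (hA : A.LiesOverPrime ℓ) (g : FLb N)
    (hg : ∀ c : Qb, g ≠ algebraMap Qb (FLb N) c) :
    ∃ (α β : Qb) (h : algebraMap Qb (FLb N) α * g + algebraMap Qb (FLb N) β ∈ gaussOBar N A),
      α ≠ 0 ∧ ∀ κ : kRes A, nmRedOo N A ⟨_, h⟩ ≠ algebraMap (kRes A) (NmF N A) κ := by
  obtain ⟨α, β, h, hα, hn⟩ := pl_single_of_G3 (L := Qb) (F := FLb N) (A := A)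
    (K₁ := LaurentSeries (kRes A)) (gaussOBar N A) (gaussRedBar N A)
    (fun c hc => (algebraMap_mem_gaussOBar_iff N A c).1 hc)
    (fun c hc => gaussRedBar_algebraMap N A c.2)
    (fun W hW => by
      obtain ⟨u, huW, huli⟩ := gaussLattice N ℓ A hA W hW
      refine ⟨u, huW, fun i j hij s t hst => ?_⟩
      have hinj : Function.Injective ![i, j] := by
        intro a b hab
        fin_cases a <;> fin_cases b <;> simp_all
      have h2 := huli.comp ![i, j] hinj
      have h3 := (linearIndependent_iff'.1 h2) Finset.univ ![s, t] (by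
        rw [Fin.sum_univ_two]
        simp only [Function.comp_apply, Matrix.cons_val_zero, Matrix.cons_val_one]
        rw [← HahnSeries.C_mul_eq_smul, ← HahnSeries.C_mul_eq_smul, HahnSeries.C_apply,
          HahnSeries.C_apply, ← algebraMap_laurentSeries_eq_single,
          ← algebraMap_laurentSeries_eq_single]
        exact hst)
      exact ⟨h3 0 (Finset.mem_univ _), h3 1 (Finset.mem_univ _)⟩) g hg
  refine ⟨α, β, h, hα, fun κ hκ => hn κ ?_⟩
  have := congrArg Subtype.val hκ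
  rw [coe_nmRedOo, coe_nmAlgebraMap] at this
  exact this

/-- **[PAIR] THE PAIR LATTICE (M5)** for the nodal data of `X₀(M p)`, unconditional. -/
theorem nmLattice : NmLatticeStatement M p := by
  intro A h f hf
  haveI : Fact p.Prime := ⟨h.prime⟩
  have hWW : ∀ z, nmW M p h.cop (nmW M p h.cop z) = z := (nmW_spec M p h.cop).2.2.2
  -- `W f` is not constant
  have hWf : ∀ c : Qb, nmW M p h.cop f ≠ algebraMap Qb (FLb (M * p)) c := by
    intro c hc
    apply hf c
    rw [← hWW f, hc, AlgEquiv.commutes]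
  obtain ⟨α₁, β₁, hx, hα₁, hnx⟩ := pl_nmSingle A (M * p) p h.liesOver f hf
  obtain ⟨α₂, β₂, hy', hα₂, hny'⟩ := pl_nmSingle A (M * p) p h.liesOver _ hWf
  have hWy : nmW M p h.cop (algebraMap Qb (FLb (M * p)) α₂ * f + algebraMap Qb (FLb (M * p)) β₂)
      = algebraMap Qb (FLb (M * p)) α₂ * nmW M p h.cop f + algebraMap Qb (FLb (M * p)) β₂ := by
    rw [map_add, map_mul, AlgEquiv.commutes, AlgEquiv.commutes]
  have hy : algebraMap Qb (FLb (M * p)) α₂ * f + algebraMap Qb (FLb (M * p)) β₂ ∈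
      nmV0 M p h.cop A := by
    rw [mem_nmV0_iff, hWy]
    exact hy'
  have hny : ∀ κ : kRes A,
      nmRed0 M p h.cop A ⟨_, hy⟩ ≠ algebraMap (kRes A) (NmF (M * p) A) κ := by
    intro κ hκ
    apply hny' κ
    rw [← hκ, nmRed0_apply]
    congr 1
    exact Subtype.ext hWy.symm
  exact pl_pair (A := A) (gaussOBar (M * p) A) (nmV0 M p h.cop A) (nmRedOo (M * p) A)
    (nmRed0 M p h.cop A)
    (fun c hc => (algebraMap_mem_gaussOBar_iff (M * p) A c).2 hc)
    (fun c hc => (pl_nmV0_const M p A h.cop c).2 hc)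
    (pl_nmRedOo_const A (M * p)) (pl_nmRed0_const M p A h.cop)
    f α₁ β₁ α₂ β₂ hα₁ hα₂ hx hy hnx hny

end Concrete

end Fermat.Agent.H62.ORD

end
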